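import Fermat.Agent.S17.H290.GaussDefs
import Fermat.Agent.Lib.RR.H80.Res.Bridge
import Fermat.Agent.Lib.RR.Adeles

/-!
# S17 / GAUSS leaf CAN (helper530)

`Fermat.Agent.S17.H290.CanonicalStatement K F` (frozen leaf of `S17/H290/GaussDefs.lean`):
every nonzero Kähler differential has a divisor, of degree `2 g − 2` (`g = genusR`).
Pure glue: `Lib/RR/H80/Res/Bridge.lean` (helper80: `exists_canonical_kaehler`, `degree_kaehler`)
and `Lib/RR/Adeles.lean` (`genusFF_eq_genusR`).
-/

set_option autoImplicit false

noncomputable section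

namespace Fermat.Agent.S17.H530

open AlgebraicCurve
open Fermat.Agent.Lib.RR

variable {K F : Type*} [Field K] [Field F] [Algebra K F] [FF1 K F] [IsAlgClosed K] [CharZero K]

variable (K F) in
/-- **CAN**: the frozen leaf `H290.CanonicalStatement K F`. -/
theorem canonicalStatement530 : Fermat.Agent.S17.H290.CanonicalStatement K F := by
  intro ω hω
  obtain ⟨W, hW, -⟩ := Fermat.Agent.Lib.RR.H80.exists_canonical_kaehler (K := K) (F := F) ω hω
  refine ⟨W, hW, ?_⟩
  rw [Fermat.Agent.Lib.RR.H80.degree_kaehler hω hW, genusFF_eq_genusR]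

end Fermat.Agent.S17.H530
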