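import Fermat.Agent.S17.H230.Rank
import Fermat.Agent.S17.H440.PtCone
import Fermat.Agent.S17.H290.OrdDiff
import Fermat.Agent.S17.H290.GaussLocal
import Fermat.Agent.S17.H800.Der
import Fermat.Agent.S24.H84.SubKD

/-!
# S17 / tower H — GAUSS piece TAN (helper530)

The tangent line in terms of differentials.  `E : EmbData K F`, `ω ≠ 0` a Kähler differential of
`F / K`, `W = div ω`.  The functions `w_jk` with `x_j dx_k − x_k dx_j = w_jk · ω` generate
`O(2 m ∞ + W)` and their values at a place `P` are the Plücker coordinates of the tangent line at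
`P`.

* `exists_local_derivation530` : at every place `P` there is a derivation `δ` with `δ π = 1`
  (`π = H230.unif P`), `dy = δ y · dπ`, stabilising the functions regular at `P`, whose value at
  `P` is the first order coefficient `H230.d1At`;
* `tan_local530` : the local statement at an arbitrary place (also at `∞`);
* `tan530` : the statement `TanStatement E W` of `S17/H320/WHMDefs.lean` (helper320), unfolded.
-/

set_option autoImplicit false
set_option linter.unusedSectionVars false

noncomputable section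

namespace Fermat.Agent.S17.H530

open AlgebraicCurve KaehlerDifferential
open Fermat.Agent.Lib.RR Fermat.Agent.S17.HWall Fermat.Agent.S17.H230

variable {K F : Type*} [Field K] [CharZero K] [IsAlgClosed K] [Field F] [Algebra K F] [FF1 K F]

/-- At every place `P` there is a derivation `δ` of `F / K` with `δ π = 1` for the uniformizer
`π = unif P`; it computes the differentials (`dy = δ y · dπ`), preserves the functions regular at
`P`, and its value at `P` is the first order coefficient. -/
theorem exists_local_derivation530 (P : Place K F) :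
    ∃ δ : Derivation K F F, δ (unif P) = 1 ∧ (∀ y : F, D K F y = δ y • D K F (unif P)) ∧
      (∀ y : F, RegAt P y → RegAt P (δ y)) ∧
      (∀ y : F, RegAt P y → valAt P (δ y) = d1At P y) := by
  obtain ⟨j, hj, hjfin⟩ := FF1.exists_finite (K := K) (F := F)
  have hcoord : Fermat.Agent.S24.FF.IsCoord K j := ⟨hj, hjfin⟩
  have hπ : P.ord (unif P) = 1 := ord_unif P
  have hv : P.deg = 1 := FF1.deg_eq_one P
  have htr : Transcendental K (unif P) :=
    Fermat.Agent.S24.H84.place_transcendental_of_ord_ne_zero P (by rw [hπ]; exact one_ne_zero)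
  obtain ⟨δ, hδ⟩ := Fermat.Agent.S17.H800.exists_derivation_eq_one (K := K) htr
  have hspan := Fermat.Agent.S17.H290.span_D_unif_eq_top j P hπ
  have hD : ∀ y : F, D K F y = δ y • D K F (unif P) := by
    intro y
    have hy : D K F y ∈ Submodule.span F {D K F (unif P)} := by rw [hspan]; trivial
    obtain ⟨c, hc⟩ := Submodule.mem_span_singleton.mp hy
    have h := congrArg δ.liftKaehlerDifferential hc
    rw [map_smul, Derivation.liftKaehlerDifferential_comp_D,
      Derivation.liftKaehlerDifferential_comp_D, hδ, smul_eq_mul, mul_one] at h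
    rw [← hc, h]
  have hreg : ∀ y : F, RegAt P y → RegAt P (δ y) := fun y hy =>
    Fermat.Agent.S17.H290.deriv_mem P (unif P) hv hπ hspan δ hδ hy
  refine ⟨δ, hδ, hD, hreg, ?_⟩
  intro y hy
  have hq := regAt_quot1 hy
  have h1 : δ y = quot1 P y + unif P * δ (quot1 P y) := by
    conv_lhs => rw [eq_add_unif_mul_quot1 P y]
    rw [map_add, Derivation.map_algebraMap, zero_add, Derivation.leibniz, hδ, smul_eq_mul,
      smul_eq_mul, mul_one, add_comm]
  rw [h1, valAt_add hq ((regAt_unif P).mul (hreg _ hq)),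
    valAt_mul (regAt_unif P) (hreg _ hq), valAt_unif, zero_mul, add_zero]
  rfl

theorem regAt_sub530 {v : Place K F} {f g : F} (hf : RegAt v f) (hg : RegAt v g) :
    RegAt v (f - g) := sub_mem hf hg

theorem valAt_sub530 {v : Place K F} {f g : F} (hf : RegAt v f) (hg : RegAt v g) :
    valAt v (f - g) = valAt v f - valAt v g := by
  have h : f - g = f + (-1 : K) • g := by rw [neg_one_smul, sub_eq_add_neg]
  rw [h, valAt_add hf (RegAt.smul _ hg), valAt_smul _ hg]
  ring

/-- **TAN, local form.**  At every place `P` the functions `w_jk` become, after multiplication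
by a function `u` of order `(2 m ∞ + div ω)(P)`, regular at `P` with values the Plücker
coordinates of the tangent line at `P` (up to a nonzero constant). -/
theorem tan_local530 (E : EmbData K F) (ω : Ω[F⁄K]) (hω : ω ≠ 0)
    (w : Fin (E.r + 1) × Fin (E.r + 1) → F)
    (hw : ∀ p, E.x p.1 • D K F (E.x p.2) - E.x p.2 • D K F (E.x p.1) = w p • ω)
    (P : Place K F) :
    ∃ u : F, u ≠ 0 ∧
      P.ord u = 2 * (E.m • prim E.vinf : Divisor K F) P + P.ordDifferential ω ∧
      (∀ p, RegAt P (u * w p)) ∧
      ∃ c : K, c ≠ 0 ∧ wedge (E.pt P) (E.tn P) = fun p => c * valAt P (u * w p) := by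
  obtain ⟨j, hj, hjfin⟩ := FF1.exists_finite (K := K) (F := F)
  have hcoord : Fermat.Agent.S24.FF.IsCoord K j := ⟨hj, hjfin⟩
  obtain ⟨δ, hδ, hD, hreg, hval⟩ := exists_local_derivation530 P
  have hπ : P.ord (unif P) = 1 := ord_unif P
  have hπ0 : unif P ≠ 0 := unif_ne_zero P
  have hspan := Fermat.Agent.S17.H290.span_D_unif_eq_top j P hπ
  obtain ⟨c0, hc0⟩ : ∃ c0 : F, c0 • D K F (unif P) = ω := by
    have hmem : ω ∈ Submodule.span F {D K F (unif P)} := by rw [hspan]; trivial
    exact Submodule.mem_span_singleton.mp hmem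
  have hc00 : c0 ≠ 0 := by
    rintro rfl
    exact hω (by rw [← hc0, zero_smul])
  have hDπ : D K F (unif P) ≠ 0 := by
    intro h
    exact hω (by rw [← hc0, h, smul_zero])
  have hordc : P.ord c0 = P.ordDifferential ω := by
    rw [← hc0, Fermat.Agent.S24.H84.kd_ordDifferential_smul j P c0 hc00 _ hDπ,
      Fermat.Agent.S17.H290.ordDifferential_D_unif j P hπ, add_zero]
  set Dv : Divisor K F := E.m • prim E.vinf with hDv
  have hyreg : ∀ i, RegAt P (E.x i * unif P ^ (Dv P)) := fun i => regAt_normD (x_mem E) P i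
  have hkey : ∀ p, (c0 * unif P ^ (2 * Dv P)) * w p =
      (E.x p.1 * unif P ^ (Dv P)) * δ (E.x p.2 * unif P ^ (Dv P)) -
        (E.x p.2 * unif P ^ (Dv P)) * δ (E.x p.1 * unif P ^ (Dv P)) := by
    intro p
    have h1 : (E.x p.1 * δ (E.x p.2) - E.x p.2 * δ (E.x p.1)) • D K F (unif P) =
        (w p * c0) • D K F (unif P) := by
      rw [sub_smul, mul_smul, mul_smul, ← hD, ← hD, hw p, ← hc0, mul_smul]
    have h2 : E.x p.1 * δ (E.x p.2) - E.x p.2 * δ (E.x p.1) = w p * c0 :=
      smul_left_injective F hDπ h1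
    have h3 : ∀ i, δ (E.x i * unif P ^ (Dv P)) =
        E.x i * δ (unif P ^ (Dv P)) + unif P ^ (Dv P) * δ (E.x i) := fun i => by
      rw [Derivation.leibniz, smul_eq_mul, smul_eq_mul]
    have h4 : unif P ^ (2 * Dv P) = unif P ^ (Dv P) * unif P ^ (Dv P) := by
      rw [two_mul, zpow_add₀ hπ0]
    rw [h3, h3, h4]
    linear_combination (-(unif P ^ (Dv P) * unif P ^ (Dv P))) * h2
  refine ⟨c0 * unif P ^ (2 * Dv P), mul_ne_zero hc00 (zpow_ne_zero _ hπ0), ?_, ?_, ?_⟩
  · rw [P.ord_mul hc00 (zpow_ne_zero _ hπ0), hordc, ord_unif_zpow]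
    ring
  · intro p
    rw [hkey p]
    exact regAt_sub530 ((hyreg _).mul (hreg _ (hyreg _))) ((hyreg _).mul (hreg _ (hyreg _)))
  · obtain ⟨l, hl⟩ := exists_pt_eq E P
    obtain ⟨μ, ν, hμν⟩ := exists_tn_eq E P
    have hne := Fermat.Agent.S17.H440.wedge_pt_tn_ne_zero E P
    have hvalz : ∀ p, valAt P ((c0 * unif P ^ (2 * Dv P)) * w p) =
        wedge (ptD Dv E.x P) (tnD Dv E.x P) p := by
      intro p
      rw [hkey p, valAt_sub530 ((hyreg _).mul (hreg _ (hyreg _)))
        ((hyreg _).mul (hreg _ (hyreg _))), valAt_mul (hyreg _) (hreg _ (hyreg _)),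
        valAt_mul (hyreg _) (hreg _ (hyreg _)), hval _ (hyreg _), hval _ (hyreg _)]
      unfold wedge
      rw [ptD_apply, ptD_apply]
      rfl
    have hwedge : wedge (E.pt P) (E.tn P) =
        (l * μ) • wedge (ptD Dv E.x P) (tnD Dv E.x P) := by
      rw [hl, hμν]
      funext p
      simp only [wedge, Pi.smul_apply, Pi.add_apply, smul_eq_mul]
      ring
    have hlμ : l * μ ≠ 0 := by
      intro h0
      apply hne
      rw [hwedge, h0, zero_smul]
    refine ⟨l * μ, hlμ, ?_⟩
    rw [hwedge]
    funext p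
    rw [hvalz p]
    rfl

/-- The coefficients `w_jk` of the differentials `x_j dx_k − x_k dx_j` with respect to `ω`. -/
theorem exists_w530 (E : EmbData K F) (ω : Ω[F⁄K]) (hω : ω ≠ 0) :
    ∃ w : Fin (E.r + 1) × Fin (E.r + 1) → F,
      ∀ p, E.x p.1 • D K F (E.x p.2) - E.x p.2 • D K F (E.x p.1) = w p • ω := by
  obtain ⟨j, hj, hjfin⟩ := FF1.exists_finite (K := K) (F := F)
  have := hjfin
  obtain ⟨f₀, hf₀⟩ := Fermat.Agent.S24.H84.kd_exists_smul_D j ω
  have hf₀0 : f₀ ≠ 0 := by
    rintro rfl
    exact hω (by rw [hf₀, zero_smul])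
  have h : ∀ p : Fin (E.r + 1) × Fin (E.r + 1), ∃ f : F,
      E.x p.1 • D K F (E.x p.2) - E.x p.2 • D K F (E.x p.1) = f • ω := by
    intro p
    obtain ⟨f, hf⟩ := Fermat.Agent.S24.H84.kd_exists_smul_D j
      (E.x p.1 • D K F (E.x p.2) - E.x p.2 • D K F (E.x p.1))
    refine ⟨f * f₀⁻¹, ?_⟩
    rw [hf, hf₀, smul_smul, mul_assoc, inv_mul_cancel₀ hf₀0, mul_one]
  choose w hw using h
  exact ⟨w, hw⟩

/-- **TAN**, with the defining property of the family `w` exposed. -/
theorem tan_w530 (E : EmbData K F) (ω : Ω[F⁄K]) (hω : ω ≠ 0) (W : Divisor K F)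
    (hW : ∀ v : Place K F, W v = v.ordDifferential ω)
    (w : Fin (E.r + 1) × Fin (E.r + 1) → F)
    (hw : ∀ p, E.x p.1 • D K F (E.x p.2) - E.x p.2 • D K F (E.x p.1) = w p • ω) :
    (∀ P : Place K F,
        (∀ p, w p = 0 ∨ -((2 * E.m) • prim E.vinf + W) P ≤ P.ord (w p)) ∧
          ∃ p, w p ≠ 0 ∧ P.ord (w p) = -((2 * E.m) • prim E.vinf + W) P) ∧
      ∀ P : Place K F, P ≠ E.vinf → W P = 0 →
        ∃ c : K, c ≠ 0 ∧ wedge (E.pt P) (E.tn P) = fun p => c * valAt P (w p) := by
  have hB : ∀ P : Place K F, ((2 * E.m) • prim E.vinf + W) P =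
      2 * (E.m • prim E.vinf : Divisor K F) P + P.ordDifferential ω := by
    intro P
    rw [Finsupp.add_apply, hW P, mul_smul, Finsupp.smul_apply, two_nsmul, two_mul]
  constructor
  · intro P
    obtain ⟨u, hu0, hordu, hregu, c, hc, hwedge⟩ := tan_local530 E ω hω w hw P
    rw [hB P, ← hordu]
    constructor
    · intro p
      by_cases hwp : w p = 0
      · exact Or.inl hwp
      right
      have h1 := (regAt_iff P _).mp (hregu p)
      rw [P.ord_mul hu0 hwp] at h1
      omega
    · have hne := Fermat.Agent.S17.H440.wedge_pt_tn_ne_zero E P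
      obtain ⟨p, hp⟩ := Function.ne_iff.mp hne
      refine ⟨p, ?_, ?_⟩
      · intro hwp
        apply hp
        rw [hwedge]
        simp [hwp]
      · have hwp : w p ≠ 0 := by
          intro hwp
          apply hp
          rw [hwedge]
          simp [hwp]
        have hv : valAt P (u * w p) ≠ 0 := by
          intro h0
          apply hp
          rw [hwedge]
          simp [h0]
        rw [Ne, valAt_eq_zero_iff (hregu p), not_or] at hv
        have h1 := (regAt_iff P _).mp (hregu p)
        have h2 : P.ord (u * w p) = 0 := by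
          have := hv.2
          omega
        rw [P.ord_mul hu0 hwp] at h2
        omega
  · intro P hP hWP
    obtain ⟨u, hu0, hordu, hregu, c, hc, hwedge⟩ := tan_local530 E ω hω w hw P
    have hprim : (E.m • prim E.vinf : Divisor K F) P = 0 := by
      rw [Finsupp.smul_apply]
      unfold prim
      rw [Finsupp.single_eq_of_ne hP, smul_zero]
    have hu : P.ord u = 0 := by
      rw [hordu, hprim, ← hW P, hWP]
      ring
    have hureg : RegAt P u := (regAt_iff P u).mpr hu.ge
    have hwreg : ∀ p, RegAt P (w p) := by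
      intro p
      by_cases hwp : w p = 0
      · rw [hwp]
        exact regAt_zero P
      · have h1 := (regAt_iff P _).mp (hregu p)
        rw [P.ord_mul hu0 hwp, hu, zero_add] at h1
        exact (regAt_iff P _).mpr h1
    refine ⟨c * valAt P u, mul_ne_zero hc (valAt_ne_zero hu0 hu), ?_⟩
    rw [hwedge]
    funext p
    rw [valAt_mul hureg (hwreg p), mul_assoc]

/-- **TAN** (= `TanStatement E W` of helper320's `S17/H320/WHMDefs.lean`, unfolded): the family
`w_jk = (x_j dx_k − x_k dx_j) / ω` generates `O(2 m ∞ + W)`, `W = div ω`, and its values at a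
place `P ≠ ∞` outside `W` are the Plücker coordinates of the tangent line at `P`. -/
theorem tan530 (E : EmbData K F) (ω : Ω[F⁄K]) (hω : ω ≠ 0) (W : Divisor K F)
    (hW : ∀ v : Place K F, W v = v.ordDifferential ω) :
    ∃ w : Fin (E.r + 1) × Fin (E.r + 1) → F,
      (∀ P : Place K F,
        (∀ p, w p = 0 ∨ -((2 * E.m) • prim E.vinf + W) P ≤ P.ord (w p)) ∧
          ∃ p, w p ≠ 0 ∧ P.ord (w p) = -((2 * E.m) • prim E.vinf + W) P) ∧
      ∀ P : Place K F, P ≠ E.vinf → W P = 0 →
        ∃ c : K, c ≠ 0 ∧ wedge (E.pt P) (E.tn P) = fun p => c * valAt P (w p) := by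
  obtain ⟨w, hw⟩ := exists_w530 E ω hω
  exact ⟨w, tan_w530 E ω hω W hW w hw⟩

end Fermat.Agent.S17.H530
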